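import Mathlib
import Fermat.Prelude.Def_ModularCurve_ArithmeticGalois
import Fermat.Agent.F3.I2.Descent.Theta
import Fermat.Agent.Lib.RR.Basic

section MergeWrap_F3_I2_Descent_AutC -- from F3/I2/Descent/AutC.lean

set_option autoImplicit false

noncomputable section

namespace Fermat.Agent.F3I2

open MvPolynomial

/-- An algebraic element of an extension of an algebraically closed field lies in the base. -/
theorem autC_mem_range_of_isAlgebraic {K K' : Type*} [Field K] [Field K'] [IsAlgClosed K]
    [Algebra K K'] {z : K'} (hz : IsAlgebraic K z) : z ∈ Set.range (algebraMap K K') := by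
  have hint : IsIntegral K z := hz.isIntegral
  refine ⟨-(minpoly K z).coeff 0, ?_⟩
  have hq : (minpoly K z).leadingCoeff = 1 := minpoly.monic hint
  have h : (minpoly K z).degree = 1 :=
    IsAlgClosed.degree_eq_one_of_irreducible K (minpoly.irreducible hint)
  have h0 : Polynomial.aeval z (minpoly K z) = 0 := minpoly.aeval K z
  rw [Polynomial.eq_X_add_C_of_degree_eq_one h, hq, Polynomial.C_1, one_mul, Polynomial.aeval_add,
    Polynomial.aeval_X, Polynomial.aeval_C, add_eq_zero_iff_eq_neg] at h0
  exact (map_neg (algebraMap K K') ((minpoly K z).coeff 0)).symm ▸ h0.symm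

/-- The translation `X_i ↦ X_i + c_i` as an algebra homomorphism of the polynomial ring. -/
def autCShiftHom {K : Type*} [CommRing K] {ι : Type*} (c : ι → K) :
    MvPolynomial ι K →ₐ[K] MvPolynomial ι K :=
  aeval (fun i => X i + C (c i))

@[simp] theorem autCShiftHom_X {K : Type*} [CommRing K] {ι : Type*} (c : ι → K) (i : ι) :
    autCShiftHom c (X i) = X i + C (c i) := by
  simp [autCShiftHom]

/-- The translation `X_i ↦ X_i + c_i` as an automorphism of the polynomial ring. -/
def autCShift {K : Type*} [CommRing K] {ι : Type*} (c : ι → K) :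
    MvPolynomial ι K ≃ₐ[K] MvPolynomial ι K :=
  AlgEquiv.ofAlgHom (autCShiftHom c) (autCShiftHom (fun i => -c i))
    (by ext i; simp)
    (by ext i; simp)

@[simp] theorem autCShift_X {K : Type*} [CommRing K] {ι : Type*} (c : ι → K) (i : ι) :
    autCShift c (X i) = X i + C (c i) := by
  simp [autCShift]

theorem exists_aut_translate {K K' : Type*} [Field K] [Field K'] [IsAlgClosed K]
    [IsAlgClosed K'] [CharZero K']
    (ι : K →+* K') (z : K') (hz : z ∉ Set.range ι) (n : ℕ) :
    ∃ σ : K' ≃+* K', (∀ a, σ (ι a) = ι a) ∧ σ z = z + n := by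
  classical
  let _ : Algebra K K' := ι.toAlgebra
  have hzt : Transcendental K z := fun hz' => hz (autC_mem_range_of_isAlgebraic hz')
  have hs : AlgebraicIndepOn K id ({z} : Set K') := by
    have : Subsingleton (({z} : Set K')) := by
      refine ⟨fun a b => Subtype.ext ?_⟩
      rw [Set.mem_singleton_iff.mp a.2, Set.mem_singleton_iff.mp b.2]
    exact (algebraicIndependent_singleton_iff (⟨z, rfl⟩ : ({z} : Set K'))).mpr hzt
  obtain ⟨B, hzB, hB⟩ := exists_isTranscendenceBasis_superset hs
  have hzB' : z ∈ B := hzB rfl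
  let c : B → K := fun b => if (b : K') = z then (n : K) else 0
  let e : Algebra.adjoin K (Set.range ((↑) : B → K')) ≃ₐ[K]
      Algebra.adjoin K (Set.range ((↑) : B → K')) :=
    hB.1.aevalEquiv.symm.trans ((autCShift c).trans hB.1.aevalEquiv)
  have := IsAlgClosed.isAlgClosure_of_transcendence_basis _ hB
  refine ⟨IsAlgClosure.equivOfEquiv K' K' e.toRingEquiv, ?_, ?_⟩
  · intro a
    have h1 : ι a = algebraMap (Algebra.adjoin K (Set.range ((↑) : B → K'))) K'
        (algebraMap K _ a) := rfl
    rw [h1, IsAlgClosure.equivOfEquiv_algebraMap]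
    congr 1
    exact e.commutes a
  · let i : B := ⟨z, hzB'⟩
    let zB : Algebra.adjoin K (Set.range ((↑) : B → K')) :=
      ⟨z, Algebra.subset_adjoin ⟨i, rfl⟩⟩
    have h1 : z = algebraMap (Algebra.adjoin K (Set.range ((↑) : B → K'))) K' zB := rfl
    have h2 : hB.1.aevalEquiv (X i) = zB := by
      apply Subtype.ext
      have h5 := hB.1.algebraMap_aevalEquiv (X i)
      rw [aeval_X] at h5
      exact h5
    have h3 : hB.1.aevalEquiv.symm zB = X i := by
      rw [← h2, AlgEquiv.symm_apply_apply]
    have h4 : e zB = hB.1.aevalEquiv (X i + C (n : K)) := by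
      show hB.1.aevalEquiv ((autCShift c) (hB.1.aevalEquiv.symm zB)) = _
      rw [h3, autCShift_X]
      simp [c, i]
    conv_lhs => rw [h1]
    rw [IsAlgClosure.equivOfEquiv_algebraMap]
    show algebraMap (Algebra.adjoin K (Set.range ((↑) : B → K'))) K' (e zB) = z + n
    rw [h4, hB.1.algebraMap_aevalEquiv]
    simp only [map_add, aeval_X, aeval_C, i]
    congr 1
    exact map_natCast ι n

theorem mem_range_of_finite_orbit {K K' : Type*} [Field K] [Field K'] [IsAlgClosed K]
    [IsAlgClosed K'] [CharZero K']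
    (ι : K →+* K') (z : K')
    (hfin : Set.Finite {y : K' | ∃ σ : K' ≃+* K', (∀ a, σ (ι a) = ι a) ∧ σ z = y}) :
    z ∈ Set.range ι := by
  by_contra hz
  have hinj : Function.Injective (fun n : ℕ => z + (n : K')) := by
    intro a b hab
    have : (a : K') = (b : K') := add_left_cancel hab
    exact_mod_cast this
  have hsub : Set.range (fun n : ℕ => z + (n : K')) ⊆
      {y : K' | ∃ σ : K' ≃+* K', (∀ a, σ (ι a) = ι a) ∧ σ z = y} := by
    rintro _ ⟨n, rfl⟩
    exact exists_aut_translate ι z hz n
  exact (Set.infinite_range_of_injective hinj) (hfin.subset hsub)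

end Fermat.Agent.F3I2
end
end MergeWrap_F3_I2_Descent_AutC

section MergeWrap_F3_I2_Descent_Fixed -- from F3/I2/Descent/Fixed.lean

set_option autoImplicit false

noncomputable section

namespace Fermat.Agent.F3I2

open ModularCurve HahnSeries AlgebraicCurve

section Gal

variable (K K' : Type*) [Field K] [Field K'] [Algebra ℚ K] [Algebra ℚ K'] [Algebra K K']
variable (F₀ : IntermediateField ℚ (LaurentSeries ℚ))

/-- `Aut(K'/K)` as a subgroup of `Aut(K'/ℚ)`. -/
def descGal : Subgroup (K' ≃ₐ[ℚ] K') where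
  carrier := {σ | ∀ a : K, σ (algebraMap K K' a) = algebraMap K K' a}
  one_mem' := fun _ => rfl
  mul_mem' := by
    intro σ τ hσ hτ a
    show σ (τ _) = _
    rw [hτ a, hσ a]
  inv_mem' := by
    intro σ hσ a
    show σ⁻¹ _ = _
    conv_lhs => rw [← hσ a]
    exact σ.symm_apply_apply _

variable {K K'} in
theorem mem_descGal {σ : K' ≃ₐ[ℚ] K'} :
    σ ∈ descGal K K' ↔ ∀ a : K, σ (algebraMap K K' a) = algebraMap K K' a := Iff.rfl

variable {K K'} in
theorem descGal_coeffMap {σ : K' ≃ₐ[ℚ] K'} (hσ : σ ∈ descGal K K') (y : LaurentSeries K) :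
    coeffMap (σ : K' →+* K') (coeffMap (algebraMap K K') y) = coeffMap (algebraMap K K') y := by
  ext k
  simp only [coeffMap_coeff]
  exact hσ _

variable {K K'} in
/-- `G` fixes `θ F` pointwise. -/
theorem descGal_smul_theta {σ : K' ≃ₐ[ℚ] K'} (hσ : σ ∈ descGal K K')
    (f : laurentBaseChange K F₀) :
    arithmeticGalois F₀ σ • descTheta K K' F₀ f = descTheta K K' F₀ f :=
  Subtype.ext (descGal_coeffMap hσ _)

/-- a ring automorphism of `K'` as a `ℚ`-algebra automorphism -/
def descRatAlgEquiv (σ : K' ≃+* K') : K' ≃ₐ[ℚ] K' :=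
  AlgEquiv.ofRingEquiv (f := σ) (fun q => by
    exact RingHom.map_rat_algebraMap (σ : K' →+* K') q)

@[simp]
theorem descRatAlgEquiv_apply (σ : K' ≃+* K') (z : K') : descRatAlgEquiv K' σ z = σ z := rfl

/-- an element of `K'` with finite `G`-orbit lies in `K`. -/
theorem descGal_mem_range_of_finite_orbit [IsAlgClosed K] [IsAlgClosed K'] [CharZero K'] (z : K')
    (hfin : Set.Finite {y : K' | ∃ σ ∈ descGal K K', σ z = y}) :
    z ∈ Set.range (algebraMap K K') := by
  refine mem_range_of_finite_orbit (algebraMap K K') z (hfin.subset ?_)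
  rintro y ⟨σ, hσ, rfl⟩
  exact ⟨descRatAlgEquiv K' σ, fun a => hσ a, rfl⟩

/-- an element of `F'` with finite `G`-orbit lies in `θ F`. -/
theorem descTheta_of_finite_orbit [IsAlgClosed K] [IsAlgClosed K'] [CharZero K']
    (x : laurentBaseChange K' F₀)
    (hfin : Set.Finite {y : laurentBaseChange K' F₀ |
      ∃ σ ∈ descGal K K', arithmeticGalois F₀ σ • x = y}) :
    x ∈ Set.range (descTheta K K' F₀) := by
  refine descTheta_rational K K' F₀ x fun k => ?_
  refine descGal_mem_range_of_finite_orbit K K' _ ?_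
  refine (hfin.image fun y : laurentBaseChange K' F₀ => (y : LaurentSeries K').coeff k).subset ?_
  rintro y ⟨σ, hσ, rfl⟩
  exact ⟨_, ⟨σ, hσ, rfl⟩, rfl⟩

end Gal

section Normalise

variable {K' : Type*} [Field K'] [Algebra ℚ K']
variable (F₀ : IntermediateField ℚ (LaurentSeries ℚ))

theorem descCoe_const_mul (c : K') (x : laurentBaseChange K' F₀) (k : ℤ) :
    ((algebraMap K' (laurentBaseChange K' F₀) c * x : laurentBaseChange K' F₀) :
      LaurentSeries K').coeff k = c * (x : LaurentSeries K').coeff k :=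
  descCoeff_const_mul c (x : LaurentSeries K') k

/-- every nonzero function has a constant multiple with some coefficient equal to `1`. -/
theorem descNormalize (x : laurentBaseChange K' F₀) (hx : x ≠ 0) :
    ∃ (c : K') (k : ℤ), c ≠ 0 ∧
      ((algebraMap K' (laurentBaseChange K' F₀) c * x : laurentBaseChange K' F₀) :
        LaurentSeries K').coeff k = 1 := by
  have hx' : (x : LaurentSeries K') ≠ 0 := fun h => hx (Subtype.ext h)
  obtain ⟨k, hk⟩ : ∃ k, (x : LaurentSeries K').coeff k ≠ 0 := by
    by_contra hcon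
    push_neg at hcon
    exact hx' (HahnSeries.ext (funext hcon))
  exact ⟨((x : LaurentSeries K').coeff k)⁻¹, k, inv_ne_zero hk, by
    rw [descCoe_const_mul, inv_mul_cancel₀ hk]⟩

/-- a normalised function that is multiplied by a constant under `σ` is fixed by `σ`. -/
theorem descFixed_of_const (x : laurentBaseChange K' F₀) (k : ℤ)
    (hk : (x : LaurentSeries K').coeff k = 1) (σ : K' ≃ₐ[ℚ] K') (u : K')
    (h : arithmeticGalois F₀ σ • x = algebraMap K' (laurentBaseChange K' F₀) u * x) :
    arithmeticGalois F₀ σ • x = x := by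
  have h1 := congrArg (fun y : laurentBaseChange K' F₀ => (y : LaurentSeries K').coeff k) h
  simp only [coe_arithmeticGalois_smul, coeffMap_coeff, descCoe_const_mul, hk, mul_one] at h1
  have hu : u = 1 := by
    rw [← h1]
    exact map_one σ
  rw [h, hu, map_one, one_mul]

/-- a normalised function whose divisor is stable under `σ` is fixed by `σ`. -/
theorem descFixed_of_ord
    (hconst : ∀ y : laurentBaseChange K' F₀, y ≠ 0 →
      (∀ w : Place K' (laurentBaseChange K' F₀), w.ord y = 0) →
      ∃ a : K', y = algebraMap K' (laurentBaseChange K' F₀) a)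
    (x : laurentBaseChange K' F₀) (k : ℤ)
    (hk : (x : LaurentSeries K').coeff k = 1) (σ : K' ≃ₐ[ℚ] K')
    (hσ : ∀ w : Place K' (laurentBaseChange K' F₀),
      (arithmeticGalois F₀ σ • w).ord x = w.ord x) :
    arithmeticGalois F₀ σ • x = x := by
  set g := arithmeticGalois F₀ σ with hg
  have hx0 : x ≠ 0 := by
    rintro rfl
    simp at hk
  have hgx0 : g • x ≠ 0 := by simpa using hx0
  have hord : ∀ w : Place K' (laurentBaseChange K' F₀), w.ord (g • x) = w.ord x := by
    intro w
    have h1 := SemilinearAut.ord_smul g (g⁻¹ • w) x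
    rw [smul_inv_smul] at h1
    rw [h1]
    have h2 := hσ (g⁻¹ • w)
    rw [smul_inv_smul] at h2
    exact h2.symm
  obtain ⟨u, hu⟩ := hconst (g • x * x⁻¹) (mul_ne_zero hgx0 (inv_ne_zero hx0)) (fun w => by
    rw [w.ord_mul hgx0 (inv_ne_zero hx0), w.ord_inv, hord w, add_neg_cancel])
  refine descFixed_of_const F₀ x k hk σ u ?_
  rw [← hu, mul_assoc, inv_mul_cancel₀ hx0, mul_one]

end Normalise

end Fermat.Agent.F3I2
end
end MergeWrap_F3_I2_Descent_Fixed

section MergeWrap_F3_I2_Descent_Places -- from F3/I2/Descent/Places.lean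

set_option autoImplicit false

noncomputable section

namespace Fermat.Agent.F3I2

open ModularCurve HahnSeries AlgebraicCurve

theorem descPlace_eq_of_ord {K F : Type*} [Field K] [Field F] [Algebra K F] {v v' : Place K F}
    (h : ∀ f : F, v.ord f = v'.ord f) : v = v' := by
  apply Place.ext
  ext f
  rw [Fermat.Agent.S24Res.mem_iff_ord_nonneg, Fermat.Agent.S24Res.mem_iff_ord_nonneg, h f]

theorem descPlace_ord_algebraMap {K F : Type*} [Field K] [Field F] [Algebra K F] (v : Place K F)
    {c : K} (hc : c ≠ 0) : v.ord (algebraMap K F c) = 0 := by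
  have h1 : 0 ≤ v.ord (algebraMap K F c) :=
    Fermat.Agent.S24Res.ord_nonneg_of_mem v (v.algebraMap_mem' c)
  have h2 : 0 ≤ v.ord (algebraMap K F c⁻¹) :=
    Fermat.Agent.S24Res.ord_nonneg_of_mem v (v.algebraMap_mem' c⁻¹)
  rw [map_inv₀, v.ord_inv] at h2
  omega

variable (K K' : Type*) [Field K] [Field K'] [Algebra ℚ K] [Algebra ℚ K'] [Algebra K K']
variable (F₀ : IntermediateField ℚ (LaurentSeries ℚ))

/-- Place extension data along `θ : F_K → F_K'`. -/
structure DescPlaces where
  /-- the unique place of `F_K'` above a place of `F_K` -/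
  ext : Place K (laurentBaseChange K F₀) → Place K' (laurentBaseChange K' F₀)
  ext_injective : Function.Injective ext
  /-- ramification index one -/
  ord_ext : ∀ v f, (ext v).ord (descTheta K K' F₀ f) = v.ord f
  /-- a place of `F_K'` is an extension place, or is trivial on `θ F_K` -/
  dich : ∀ w : Place K' (laurentBaseChange K' F₀),
    (∃ v, ext v = w) ∨ (∀ f : laurentBaseChange K F₀, w.ord (descTheta K K' F₀ f) = 0)

namespace DescPlaces

variable {K K' F₀}
variable (P : DescPlaces K K' F₀)

theorem eq_ext_of_ord (v : Place K (laurentBaseChange K F₀))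
    (w : Place K' (laurentBaseChange K' F₀))
    (h : ∀ f, w.ord (descTheta K K' F₀ f) = v.ord f) : w = P.ext v := by
  rcases P.dich w with ⟨v', rfl⟩ | h0
  · congr 1
    refine descPlace_eq_of_ord fun f => ?_
    rw [← h f, P.ord_ext]
  · exfalso
    obtain ⟨t, ht⟩ := Fermat.Agent.RR.exists_uniformizer v
    have := h t
    rw [h0 t, ht] at this
    exact zero_ne_one this

/-- extension places are fixed by `Aut(K'/K)`. -/
theorem smul_ext {σ : K' ≃ₐ[ℚ] K'} (hσ : σ ∈ descGal K K')
    (v : Place K (laurentBaseChange K F₀)) :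
    arithmeticGalois F₀ σ • P.ext v = P.ext v := by
  refine P.eq_ext_of_ord v _ fun f => ?_
  have h1 := SemilinearAut.ord_smul (arithmeticGalois F₀ σ) (P.ext v) (descTheta K K' F₀ f)
  rw [descGal_smul_theta F₀ hσ] at h1
  rw [h1, P.ord_ext]

/-- base change of divisors -/
def bcDiv : Divisor K (laurentBaseChange K F₀) →+ Divisor K' (laurentBaseChange K' F₀) :=
  Finsupp.mapDomain.addMonoidHom P.ext

theorem bcDiv_apply_ext (D : Divisor K (laurentBaseChange K F₀))
    (v : Place K (laurentBaseChange K F₀)) : P.bcDiv D (P.ext v) = D v :=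
  Finsupp.mapDomain_apply P.ext_injective D v

theorem bcDiv_apply_of_not (D : Divisor K (laurentBaseChange K F₀))
    (w : Place K' (laurentBaseChange K' F₀)) (hw : ∀ v, P.ext v ≠ w) : P.bcDiv D w = 0 :=
  Finsupp.mapDomain_notin_range D w (by rintro ⟨v, hv⟩; exact hw v hv)

theorem bcDiv_single (v : Place K (laurentBaseChange K F₀)) (n : ℤ) :
    P.bcDiv (Finsupp.single v n) = Finsupp.single (P.ext v) n :=
  Finsupp.mapDomain_single

theorem bcDiv_injective : Function.Injective P.bcDiv :=
  Finsupp.mapDomain_injective P.ext_injective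

/-- `bcDiv (div f) = div (θ f)` -/
theorem bcDiv_principal (D : Divisor K (laurentBaseChange K F₀)) (f : laurentBaseChange K F₀)
    (hD : ∀ v, D v = v.ord f) (w : Place K' (laurentBaseChange K' F₀)) :
    P.bcDiv D w = w.ord (descTheta K K' F₀ f) := by
  rcases P.dich w with ⟨v, rfl⟩ | h0
  · rw [P.bcDiv_apply_ext, P.ord_ext, hD]
  · by_cases hw : ∃ v, P.ext v = w
    · obtain ⟨v, rfl⟩ := hw
      rw [P.bcDiv_apply_ext, P.ord_ext, hD]
    · push_neg at hw
      rw [P.bcDiv_apply_of_not D w hw, h0]

theorem smul_bcDiv {σ : K' ≃ₐ[ℚ] K'} (hσ : σ ∈ descGal K K')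
    (D : Divisor K (laurentBaseChange K F₀)) :
    arithmeticGalois F₀ σ • P.bcDiv D = P.bcDiv D := by
  induction D using Finsupp.induction with
  | zero => simp
  | single_add v n D _ _ ih =>
      rw [map_add, smul_add, ih, bcDiv_single, SemilinearAut.smul_single, P.smul_ext hσ]

theorem bcDiv_smul_apply {σ : K' ≃ₐ[ℚ] K'} (hσ : σ ∈ descGal K K')
    (D : Divisor K (laurentBaseChange K F₀)) (w : Place K' (laurentBaseChange K' F₀)) :
    P.bcDiv D (arithmeticGalois F₀ σ • w) = P.bcDiv D w := by
  have h := SemilinearAut.divisor_smul_apply_smul (arithmeticGalois F₀ σ) (P.bcDiv D) w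
  rw [P.smul_bcDiv hσ] at h
  exact h

/-- **Injectivity of the base change on divisor classes.** -/
theorem bcDiv_principal_descends [IsAlgClosed K] [IsAlgClosed K'] [CharZero K']
    (hconst : ∀ y : laurentBaseChange K' F₀, y ≠ 0 →
      (∀ w : Place K' (laurentBaseChange K' F₀), w.ord y = 0) →
      ∃ a : K', y = algebraMap K' (laurentBaseChange K' F₀) a)
    (D : Divisor K (laurentBaseChange K F₀)) (x' : laurentBaseChange K' F₀) (hx' : x' ≠ 0)
    (h : ∀ w, P.bcDiv D w = w.ord x') :
    ∃ x : laurentBaseChange K F₀, x ≠ 0 ∧ ∀ v, D v = v.ord x := by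
  obtain ⟨c, k, hc, hk⟩ := descNormalize F₀ x' hx'
  set x'' := algebraMap K' (laurentBaseChange K' F₀) c * x' with hx''
  have hcne : algebraMap K' (laurentBaseChange K' F₀) c ≠ 0 := by simpa using hc
  have hord : ∀ w : Place K' (laurentBaseChange K' F₀), w.ord x'' = P.bcDiv D w := by
    intro w
    rw [hx'', w.ord_mul hcne hx', descPlace_ord_algebraMap w hc, zero_add, h]
  have hfix : ∀ σ ∈ descGal K K', arithmeticGalois F₀ σ • x'' = x'' := by
    intro σ hσ
    refine descFixed_of_ord F₀ hconst x'' k hk σ fun w => ?_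
    rw [hord, hord, P.bcDiv_smul_apply hσ]
  have hfin : Set.Finite {y : laurentBaseChange K' F₀ |
      ∃ σ ∈ descGal K K', arithmeticGalois F₀ σ • x'' = y} := by
    refine (Set.finite_singleton x'').subset ?_
    rintro y ⟨σ, hσ, rfl⟩
    exact hfix σ hσ
  obtain ⟨x, hx⟩ := descTheta_of_finite_orbit K K' F₀ x'' hfin
  have hx''0 : x'' ≠ 0 := mul_ne_zero hcne hx'
  refine ⟨x, ?_, fun v => ?_⟩
  · rintro rfl
    rw [map_zero] at hx
    exact hx''0 hx.symm
  · rw [← P.bcDiv_apply_ext D v, ← hord, ← hx, P.ord_ext]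

end DescPlaces

end Fermat.Agent.F3I2
end
end MergeWrap_F3_I2_Descent_Places
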