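import Mathlib
import Fermat.Prelude.Def_ModularCurve_HeckeOperatorTotal
import Fermat.Prelude.Thm_ModularCurve_coeffMap_qExpand
import Fermat.Agent.MU.F3.I2.Descent.Main
import Fermat.Agent.MU.F3.I2.Descent.Final
import Fermat.Agent.MU.Lib.RR.OfModularBar
import Fermat.Agent.MU.F3.DictC.GlobalDatum
import Fermat.Agent.MU.F3.TorsFin.CharFinite
import Fermat.Agent.MU.Lib.HeckeInputs.Qbar
import Fermat.Agent.MU.Lib.HeckeInputs.Complex

section MergeWrap_F3_I2_Descent_Hecke -- from F3/I2/Descent/Hecke.lean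

set_option autoImplicit false

noncomputable section

namespace Fermat.Agent.F3I2

open ModularCurve HahnSeries AlgebraicCurve Fermat.Agent.RR

section AlongAux

variable {K F F' : Type*} [Field K] [Field F] [Field F'] [Algebra K F] [Algebra K F']

theorem descRamAlong_pos (φ : F →ₐ[K] F') (hφ : φ.toRingHom.IsIntegral) (w : Place K F') :
    0 < w.ramificationIndexAlong φ := by
  letI := algebraAlong φ
  haveI := isScalarTower_along φ
  haveI := isIntegral_along φ hφ
  exact w.ramificationIndex_pos (F := F)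

theorem descInertiaAlong_eq_one (φ : F →ₐ[K] F') (hφ : φ.toRingHom.IsIntegral) (w : Place K F')
    (h1 : ∀ v : Place K F, v.deg = 1) (h2 : w.deg = 1) : w.inertiaDegAlong φ hφ = 1 := by
  letI := algebraAlong φ
  haveI := isScalarTower_along φ
  haveI := isIntegral_along φ hφ
  have h := w.deg_restrict_mul_inertiaDeg (F := F)
  rw [h1, h2, one_mul] at h
  exact h

end AlongAux

variable {K K' : Type*} [Field K] [Field K'] [Algebra ℚ K] [Algebra ℚ K'] [Algebra K K']
variable {F₁ F₂ : IntermediateField ℚ (LaurentSeries ℚ)}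

namespace DescPlaces

variable (P₁ : DescPlaces K K' F₁) (P₂ : DescPlaces K K' F₂)
variable (φ : laurentBaseChange K F₁ →ₐ[K] laurentBaseChange K F₂)
variable (φ' : laurentBaseChange K' F₁ →ₐ[K'] laurentBaseChange K' F₂)
variable (hφ : φ.toRingHom.IsIntegral) (hφ' : φ'.toRingHom.IsIntegral)
variable (hcomm : ∀ f, descTheta K K' F₂ (φ f) = φ' (descTheta K K' F₁ f))

include hcomm in
theorem ord_along_eq (u : Place K (laurentBaseChange K F₂)) (f : laurentBaseChange K F₁) :
    ((P₂.ext u).ramificationIndexAlong φ' : ℤ)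
        * ((P₂.ext u).restrictAlong φ' hφ').ord (descTheta K K' F₁ f)
      = (u.ramificationIndexAlong φ : ℤ) * (u.restrictAlong φ hφ).ord f := by
  rw [← Place.ord_restrictAlong φ' hφ', ← Place.ord_restrictAlong φ hφ, ← hcomm, P₂.ord_ext]

include hcomm in
/-- restriction and ramification index are compatible with the extension of places. -/
theorem restrictAlong_ext (u : Place K (laurentBaseChange K F₂)) :
    (P₂.ext u).restrictAlong φ' hφ' = P₁.ext (u.restrictAlong φ hφ) ∧
      (P₂.ext u).ramificationIndexAlong φ' = u.ramificationIndexAlong φ := by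
  have key := P₂.ord_along_eq φ φ' hφ hφ' hcomm u
  have he' : (0 : ℤ) < ((P₂.ext u).ramificationIndexAlong φ' : ℤ) := by
    exact_mod_cast descRamAlong_pos φ' hφ' (P₂.ext u)
  have he : (0 : ℤ) < (u.ramificationIndexAlong φ : ℤ) := by
    exact_mod_cast descRamAlong_pos φ hφ u
  set e' : ℤ := ((P₂.ext u).ramificationIndexAlong φ' : ℤ) with he'def
  set e : ℤ := (u.ramificationIndexAlong φ : ℤ) with hedef
  set v := u.restrictAlong φ hφ with hv
  obtain ⟨t, ht⟩ := Fermat.Agent.RR.exists_uniformizer v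
  rcases P₁.dich ((P₂.ext u).restrictAlong φ' hφ') with ⟨v₁, hv₁⟩ | h0
  · rw [← hv₁] at key
    simp only [P₁.ord_ext] at key
    obtain ⟨t₁, ht₁⟩ := Fermat.Agent.RR.exists_uniformizer v₁
    have ha := key t₁
    have hb := key t
    rw [ht₁, mul_one] at ha
    rw [ht, mul_one] at hb
    -- e' = e * a, e' * b = e
    have hab : v.ord t₁ * v₁.ord t = 1 := by
      have h1 : e' * (v.ord t₁ * v₁.ord t) = e' * 1 := by
        calc e' * (v.ord t₁ * v₁.ord t) = (e' * v₁.ord t) * v.ord t₁ := by ring
          _ = e * v.ord t₁ := by rw [hb]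
          _ = e' * 1 := by rw [← ha, mul_one]
      exact mul_left_cancel₀ he'.ne' h1
    have hapos : 0 < v.ord t₁ := by
      by_contra hneg
      push_neg at hneg
      have : e * v.ord t₁ ≤ 0 := mul_nonpos_of_nonneg_of_nonpos he.le hneg
      omega
    have ha1 : v.ord t₁ = 1 := by
      rcases Int.eq_one_or_neg_one_of_mul_eq_one hab with h | h
      · exact h
      · omega
    have hee : e' = e := by rw [ha, ha1, mul_one]
    have hvv : v₁ = v := by
      refine descPlace_eq_of_ord fun f => ?_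
      have := key f
      rw [hee] at this
      exact mul_left_cancel₀ he.ne' this
    refine ⟨by rw [← hv₁, hvv], ?_⟩
    rw [he'def, hedef] at hee
    exact_mod_cast hee
  · exfalso
    have := key t
    rw [h0 t, ht, mul_zero, mul_one] at this
    omega

include hcomm in
/-- a place of `F₂'` which is not an extension place does not restrict to an extension place. -/
theorem restrictAlong_not_ext (w' : Place K' (laurentBaseChange K' F₂))
    (hw' : ∀ u, P₂.ext u ≠ w') (v : Place K (laurentBaseChange K F₁)) :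
    P₁.ext v ≠ w'.restrictAlong φ' hφ' := by
  intro hv
  rcases P₂.dich w' with ⟨u, hu⟩ | h0
  · exact hw' u hu
  · obtain ⟨t, ht⟩ := Fermat.Agent.RR.exists_uniformizer v
    have h1 := Place.ord_restrictAlong φ' hφ' w' (descTheta K K' F₁ t)
    rw [← hcomm, h0, ← hv, P₁.ord_ext, ht, mul_one] at h1
    have he' : (0 : ℤ) < (w'.ramificationIndexAlong φ' : ℤ) := by
      exact_mod_cast descRamAlong_pos φ' hφ' w'
    omega

include hcomm in
/-- base change commutes with pullback. -/
theorem bcDiv_pullbackAlong [HasPrincipalDivisors K (laurentBaseChange K F₂)]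
    [HasPrincipalDivisors K' (laurentBaseChange K' F₂)]
    (D : Divisor K (laurentBaseChange K F₁)) :
    P₂.bcDiv (Divisor.pullbackAlong φ hφ D) = Divisor.pullbackAlong φ' hφ' (P₁.bcDiv D) := by
  refine Finsupp.ext fun w' => ?_
  rw [Divisor.pullbackAlong_apply]
  by_cases hw : ∃ u, P₂.ext u = w'
  · obtain ⟨u, rfl⟩ := hw
    obtain ⟨h1, h2⟩ := P₁.restrictAlong_ext P₂ φ φ' hφ hφ' hcomm u
    rw [P₂.bcDiv_apply_ext, Divisor.pullbackAlong_apply, h1, h2, P₁.bcDiv_apply_ext]
  · rw [not_exists] at hw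
    rw [P₂.bcDiv_apply_of_not _ w' hw,
      P₁.bcDiv_apply_of_not D _ (P₁.restrictAlong_not_ext P₂ φ φ' hφ' hcomm w' hw), mul_zero]

include hcomm in
/-- base change commutes with pushforward. -/
theorem bcDiv_pushforwardAlong
    (hK₁ : ∀ v : Place K (laurentBaseChange K F₁), v.deg = 1)
    (hK₂ : ∀ v : Place K (laurentBaseChange K F₂), v.deg = 1)
    (hK₁' : ∀ v : Place K' (laurentBaseChange K' F₁), v.deg = 1)
    (hK₂' : ∀ v : Place K' (laurentBaseChange K' F₂), v.deg = 1)
    (D : Divisor K (laurentBaseChange K F₂)) :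
    P₁.bcDiv (Divisor.pushforwardAlong φ hφ D) = Divisor.pushforwardAlong φ' hφ' (P₂.bcDiv D) := by
  induction D using Finsupp.induction with
  | zero => simp
  | single_add u n D _ _ ih =>
      rw [map_add, map_add, map_add, map_add, ih]
      congr 1
      obtain ⟨h1, -⟩ := P₁.restrictAlong_ext P₂ φ φ' hφ hφ' hcomm u
      rw [Divisor.pushforwardAlong_single, bcDiv_single, bcDiv_single,
        Divisor.pushforwardAlong_single, h1, descInertiaAlong_eq_one φ hφ u hK₁ (hK₂ u),
        descInertiaAlong_eq_one φ' hφ' (P₂.ext u) hK₁' (hK₂' _)]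

end DescPlaces

end Fermat.Agent.F3I2
end
end MergeWrap_F3_I2_Descent_Hecke

section MergeWrap_F3_I2_Descent_HeckeBc -- from F3/I2/Descent/HeckeBc.lean

set_option autoImplicit false

noncomputable section

namespace Fermat.Agent.F3I2

open ModularCurve HahnSeries AlgebraicCurve Fermat.Agent.RR

variable {K K' : Type*} [Field K] [Field K'] [Algebra ℚ K] [Algebra ℚ K'] [Algebra K K']

namespace DescPlaces

section Generic

variable {F₁ F₂ : IntermediateField ℚ (LaurentSeries ℚ)}
variable (P₁ : DescPlaces K K' F₁) (P₂ : DescPlaces K K' F₂)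
variable (φ ψ : laurentBaseChange K F₁ →ₐ[K] laurentBaseChange K F₂)
variable (φ' ψ' : laurentBaseChange K' F₁ →ₐ[K'] laurentBaseChange K' F₂)
variable (hφ : φ.toRingHom.IsIntegral) (hφ' : φ'.toRingHom.IsIntegral)
variable (hψ : ψ.toRingHom.IsIntegral) (hψ' : ψ'.toRingHom.IsIntegral)
variable (hcφ : ∀ f, descTheta K K' F₂ (φ f) = φ' (descTheta K K' F₁ f))
variable (hcψ : ∀ f, descTheta K K' F₂ (ψ f) = ψ' (descTheta K K' F₁ f))

include P₂ hcφ hcψ in
/-- base change commutes with correspondences (divisors). -/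
theorem bcDiv_correspondence [HasPrincipalDivisors K (laurentBaseChange K F₂)]
    [HasPrincipalDivisors K' (laurentBaseChange K' F₂)]
    (hK₁ : ∀ v : Place K (laurentBaseChange K F₁), v.deg = 1)
    (hK₂ : ∀ v : Place K (laurentBaseChange K F₂), v.deg = 1)
    (hK₁' : ∀ v : Place K' (laurentBaseChange K' F₁), v.deg = 1)
    (hK₂' : ∀ v : Place K' (laurentBaseChange K' F₂), v.deg = 1)
    (D : Divisor K (laurentBaseChange K F₁)) :
    P₁.bcDiv (Divisor.correspondence φ ψ hφ hψ D)
      = Divisor.correspondence φ' ψ' hφ' hψ' (P₁.bcDiv D) := by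
  rw [Divisor.correspondence_apply, Divisor.correspondence_apply,
    P₁.bcDiv_pushforwardAlong P₂ ψ ψ' hψ hψ' hcψ hK₁ hK₂ hK₁' hK₂',
    P₁.bcDiv_pullbackAlong P₂ φ φ' hφ hφ' hcφ]

include P₂ hcφ hcψ in
/-- base change commutes with correspondences (classes). -/
theorem bc_correspondence [HasPrincipalDivisors K (laurentBaseChange K F₂)]
    [HasPrincipalDivisors K' (laurentBaseChange K' F₂)]
    (hK₁ : IsRRField K (laurentBaseChange K F₁))
    (hK₁' : IsRRField K' (laurentBaseChange K' F₁))
    (hK₂ : ∀ v : Place K (laurentBaseChange K F₂), v.deg = 1)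
    (hK₂' : ∀ v : Place K' (laurentBaseChange K' F₂), v.deg = 1)
    (hFI : FundamentalIdentityAlong K φ hφ) (hfin : FiniteAlong K ψ)
    (hN : NormFormulaAlong K ψ hfin)
    (hFI' : FundamentalIdentityAlong K' φ' hφ') (hfin' : FiniteAlong K' ψ')
    (hN' : NormFormulaAlong K' ψ' hfin')
    (x : Pic0 K (laurentBaseChange K F₁)) :
    P₁.bc hK₁ hK₁' (Pic0.correspondence φ ψ hφ hψ hFI hfin hN x)
      = Pic0.correspondence φ' ψ' hφ' hψ' hFI' hfin' hN' (P₁.bc hK₁ hK₁' x) := by
  obtain ⟨D, rfl⟩ := Pic0.mk_surjective x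
  rw [Pic0.correspondence_mk, bc_mk, bc_mk, Pic0.correspondence_mk]
  congr 1
  apply Subtype.ext
  simp only [coe_bcDegZero, Pic0.coe_degZeroCorrespondence]
  exact P₁.bcDiv_correspondence P₂ φ ψ φ' ψ' hφ hφ' hψ hψ' hcφ hcψ hK₁.deg_one hK₂ hK₁'.deg_one
    hK₂' _

end Generic

section Hecke

variable (N ℓ : ℕ) [NeZero N] [NeZero ℓ]

theorem descTheta_heckeAlphaBar (f : laurentBaseChange K (modularFunctionFieldFull N)) :
    descTheta K K' (modularFunctionFieldFull (N * ℓ)) (heckeAlphaBar K N ℓ f)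
      = heckeAlphaBar K' N ℓ (descTheta K K' (modularFunctionFieldFull N) f) := by
  apply Subtype.ext
  simp only [coe_descTheta, coe_heckeAlphaBar]

omit [NeZero N] in
theorem descTheta_heckeBetaBar (f : laurentBaseChange K (modularFunctionFieldFull N)) :
    descTheta K K' (modularFunctionFieldFull (N * ℓ)) (heckeBetaBar K N ℓ f)
      = heckeBetaBar K' N ℓ (descTheta K K' (modularFunctionFieldFull N) f) := by
  apply Subtype.ext
  simp only [coe_descTheta, coe_heckeBetaBar]
  exact ModularCurve.coeffMap_qExpand _ ℓ _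

/-- **`bc` commutes with the Hecke operator `T_ℓ`.** -/
theorem bc_heckeOperatorAlong
    (P₁ : DescPlaces K K' (modularFunctionFieldFull N))
    (P₂ : DescPlaces K K' (modularFunctionFieldFull (N * ℓ)))
    (hK₁ : IsRRField K (laurentBaseChange K (modularFunctionFieldFull N)))
    (hK₁' : IsRRField K' (laurentBaseChange K' (modularFunctionFieldFull N)))
    (hK₂ : ∀ v : Place K (laurentBaseChange K (modularFunctionFieldFull (N * ℓ))), v.deg = 1)
    (hK₂' : ∀ v : Place K' (laurentBaseChange K' (modularFunctionFieldFull (N * ℓ))), v.deg = 1)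
    (hH : HeckeInputsAlong K N ℓ) (hH' : HeckeInputsAlong K' N ℓ)
    (x : Pic0 K (laurentBaseChange K (modularFunctionFieldFull N))) :
    P₁.bc hK₁ hK₁' (heckeOperatorAlong K N ℓ x)
      = heckeOperatorAlong K' N ℓ (P₁.bc hK₁ hK₁' x) := by
  obtain ⟨hα, hβ, hP, hfin, hFI, hN⟩ := hH
  obtain ⟨hα', hβ', hP', hfin', hFI', hN'⟩ := hH'
  rw [heckeOperatorAlong_eq hα hβ hFI hfin hN, heckeOperatorAlong_eq hα' hβ' hFI' hfin' hN']
  exact P₁.bc_correspondence P₂ (heckeBetaBar K N ℓ) (heckeAlphaBar K N ℓ)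
    (heckeBetaBar K' N ℓ) (heckeAlphaBar K' N ℓ) hβ hβ' hα hα'
    (descTheta_heckeBetaBar N ℓ) (descTheta_heckeAlphaBar N ℓ) hK₁ hK₁' hK₂ hK₂'
    hFI hfin hN hFI' hfin' hN' x

end Hecke

end DescPlaces

end Fermat.Agent.F3I2
end
end MergeWrap_F3_I2_Descent_HeckeBc

section MergeWrap_F3_I2_Descent_Uncond -- from F3/I2/Descent/Uncond.lean

set_option autoImplicit false

noncomputable section

namespace Fermat.Agent.F3I2

open ModularCurve HahnSeries AlgebraicCurve Fermat.Agent.RR

variable (N : ℕ) [NeZero N]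

set_option synthInstance.maxHeartbeats 400000 in
/-- the Riemann-Roch library applies to the function field of `X₀(N)` over `ℂ`. -/
theorem descIsRRField_FC :
    IsRRField ℂ (laurentBaseChange ℂ (modularFunctionFieldFull N)) :=
  Fermat.Agent.RR.isRRField_of_charZero (Fermat.Agent.F3Dict.isFunctionFieldOver_jBar N)

/-- base change of divisors `ℚ̄ → ℂ`. -/
def descBcDiv : Divisor (AlgebraicClosure ℚ) (modularFunctionFieldBar N) →+
    Divisor ℂ (laurentBaseChange ℂ (modularFunctionFieldFull N)) :=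
  descBcDivQC (Fermat.Agent.RRMod.isRRField_bar N)

/-- the extension of places `ℚ̄ → ℂ`. -/
def descExt (v : Place (AlgebraicClosure ℚ) (modularFunctionFieldBar N)) :
    Place ℂ (laurentBaseChange ℂ (modularFunctionFieldFull N)) :=
  descExtQC (Fermat.Agent.RRMod.isRRField_bar N) v

theorem ord_descExt (v : Place (AlgebraicClosure ℚ) (modularFunctionFieldBar N))
    (f : modularFunctionFieldBar N) : (descExt N v).ord (descThetaQC N f) = v.ord f :=
  ord_descExtQC _ v f

theorem descBcDiv_single (v : Place (AlgebraicClosure ℚ) (modularFunctionFieldBar N)) (n : ℤ) :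
    descBcDiv N (Finsupp.single v n) = Finsupp.single (descExt N v) n :=
  descBcDivQC_single _ v n

theorem descBcDiv_principal (D : Divisor (AlgebraicClosure ℚ) (modularFunctionFieldBar N))
    (f : modularFunctionFieldBar N) (hD : ∀ v, D v = v.ord f)
    (w : Place ℂ (laurentBaseChange ℂ (modularFunctionFieldFull N))) :
    descBcDiv N D w = w.ord (descThetaQC N f) :=
  descBcDivQC_principal _ D f hD w

theorem degree_descBcDiv (D : Divisor (AlgebraicClosure ℚ) (modularFunctionFieldBar N)) :
    Divisor.degree (descBcDiv N D) = Divisor.degree D :=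
  degree_descBcDivQC _ (descIsRRField_FC N) D

/-- **the base change** `JZero N →+ Pic0 ℂ (FC N)`. -/
def descBc : JZero N →+ Pic0 ℂ (laurentBaseChange ℂ (modularFunctionFieldFull N)) :=
  descBcQC (Fermat.Agent.RRMod.isRRField_bar N) (descIsRRField_FC N)

theorem descBc_mk (D : Divisor.degZero (K := AlgebraicClosure ℚ) (F := modularFunctionFieldBar N)) :
    descBc N (Pic0.mk D)
      = Pic0.mk ⟨descBcDiv N (D : Divisor _ _), by
          rw [Divisor.mem_degZero, degree_descBcDiv]; exact D.2⟩ :=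
  rfl

/-- **`bc` is injective.** -/
theorem descBc_injective : Function.Injective (descBc N) :=
  descBcQC_injective _ _

/-- **`bc` is onto the torsion.** -/
theorem descBc_surjective_torsion (n : ℕ) (hn : 0 < n)
    (x' : Pic0 ℂ (laurentBaseChange ℂ (modularFunctionFieldFull N))) (hx' : n • x' = 0) :
    ∃ x : JZero N, descBc N x = x' ∧ n • x = 0 :=
  descBcQC_surjective_torsion _ _ n hn (Fermat.Agent.F3TF.finite_torsion_FC hn.ne') x' hx'

/-- the inverse of `bc` on the `n`-torsion, as a map. -/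
theorem descBc_existsUnique_torsion (n : ℕ) (hn : 0 < n)
    (x' : Pic0 ℂ (laurentBaseChange ℂ (modularFunctionFieldFull N))) (hx' : n • x' = 0) :
    ∃! x : JZero N, descBc N x = x' := by
  obtain ⟨x, hx, -⟩ := descBc_surjective_torsion N n hn x' hx'
  exact ⟨x, hx, fun y hy => descBc_injective N (hy.trans hx.symm)⟩

/-- finiteness of the `n`-torsion of `JZero N` (a consequence of the finiteness over `ℂ`). -/
theorem descFinite_torsion_JZero (n : ℕ) (hn : n ≠ 0) : {x : JZero N | n • x = 0}.Finite := by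
  refine Set.Finite.of_finite_image (f := descBc N) ?_ (descBc_injective N).injOn
  refine (Fermat.Agent.F3TF.finite_torsion_FC (N := N) hn).subset ?_
  rintro _ ⟨x, hx, rfl⟩
  show n • descBc N x = 0
  rw [← map_nsmul, show n • x = 0 from hx, map_zero]

/-- **`bc` commutes with the Hecke operators** (all `ℓ`, all classes). -/
theorem descBc_hecke (ℓ : ℕ) [NeZero ℓ] (x : JZero N) :
    descBc N (heckeOperatorAlong (AlgebraicClosure ℚ) N ℓ x)
      = heckeOperatorAlong ℂ N ℓ (descBc N x) := by
  letI := descAlgebraQbarC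
  haveI : NeZero (N * ℓ) := ⟨Nat.mul_ne_zero (NeZero.ne N) (NeZero.ne ℓ)⟩
  exact DescPlaces.bc_heckeOperatorAlong N ℓ
    (descPlacesQC (Fermat.Agent.RRMod.isRRField_bar N))
    (descPlacesQC (Fermat.Agent.RRMod.isRRField_bar (N * ℓ)))
    (Fermat.Agent.RRMod.isRRField_bar N) (descIsRRField_FC N)
    (Fermat.Agent.RRMod.isRRField_bar (N * ℓ)).deg_one (descIsRRField_FC (N * ℓ)).deg_one
    (Fermat.Agent.HeckeInputs.hi_heckeInputsAlong_Qbar N ℓ)
    (Fermat.Agent.HeckeInputs.hi_heckeInputsAlong_complex N ℓ) x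

end Fermat.Agent.F3I2
end
end MergeWrap_F3_I2_Descent_Uncond
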